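import Mathlib
import Fermat.Agent.FF2.Disc.Bridge
import Fermat.Agent.FF2.Chord.Sol

/-!
# MOONSHOT S19, node (HC): the honest chord against the abstract universal chord (UC4)

`S : RedSetup A π` (good reduction), `j : W →+* A` the base ring (`W = Λ_n`), `X : ChordData W …`
the abstract chord data of helper2's (UC4).  `HonestData S j X Z` ties `X` to geometry: functions
`e i ∈ B_Z` (a basis of a lattice), disc coordinates at the input discs (`CD` double, `CS` single),
at the centres of the fixed jets (`Cν`, orders `lν`) and at the output discs (`CO`), such that the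
series/jets of `X` are the Taylor series/coefficients of the `e i`.

For a coefficient vector `c : ι → A` put `Fh = ∑ cᵢ eᵢ` (an honest function).  For any
`W`-algebra `𝒪`, `J`-adically complete, and `ιO : A →+* 𝒪` compatible with `j`:

* `HonestData.mulVec_condMatrix_eq_zero` : if `Fh` vanishes on `PX d + PY d` (points of the `d`-th
  double disc), at `PZ s`, and has vanishing jets, then `ιO ∘ c` lies in the kernel of the
  condition matrix of (UC4) at the point `(ιO t(PX), ιO t(PY), ιO t(PZ))`.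
* `HonestData.coord_eq_Wser` : if moreover `Fh` vanishes at a point `PW` of the output disc `o`
  and `c s.i0` is a unit, then `ιO (t'_o(PW)) = s.Wser o` for every chord solution `s` at that
  point — in particular for the specialisation `s_univ.map ρ` of the universal solution:
  **the output coordinate is the universal series evaluated at the input coordinates**.
-/

set_option autoImplicit false

namespace Fermat.Agent.FF2.HChord

open AlgebraicCurve Fermat.Agent.Red Fermat.Agent.X0 Fermat.Agent.FF2.Disc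
  Fermat.Agent.FF2.Weier Fermat.Agent.FF2.Chord

variable {K F k Ft : Type*} [Field K] [Field F] [Algebra K F] [Field k] [Field Ft]
  [Algebra k Ft] {A : ValuationSubring K} {π : A →+* k}

variable {W : Type*} [CommRing W] {ι D Sg ν O : Type*}

/-- Geometric realisation of an abstract chord datum. -/
structure HonestData (S : RedSetup (F := F) (Ft := Ft) A π) (j : W →+* A)
    (X : ChordData W ι D Sg ν O) (Z : Set (Place K F)) where
  /-- the lattice basis -/
  e : ι → F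
  he : ∀ i, e i ∈ S.chart Z
  /-- input discs with a double condition -/
  CD : D → DiscCoord S Z
  /-- input discs with a single condition -/
  CS : Sg → DiscCoord S Z
  /-- output discs -/
  CO : O → DiscCoord S Z
  /-- centres of the fixed jets -/
  Cν : ν → DiscCoord S Z
  /-- orders of the fixed jets -/
  lν : ν → ℕ
  hτD : ∀ d i n, ((j (PowerSeries.coeff n (X.τD d i)) : A) : K) = (CD d).coeff (e i) n
  hτS : ∀ s i n, ((j (PowerSeries.coeff n (X.τS s i)) : A) : K) = (CS s).coeff (e i) n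
  hτO : ∀ o i n, ((j (PowerSeries.coeff n (X.τO o i)) : A) : K) = (CO o).coeff (e i) n
  hρ0 : ∀ n i, ((j (X.ρ0 n i) : A) : K) = (Cν n).coeff (e i) (lν n)

namespace HonestData

variable {S : RedSetup (F := F) (Ft := Ft) A π} {j : W →+* A} {X : ChordData W ι D Sg ν O}
  {Z : Set (Place K F)} (H : HonestData S j X Z)

/-- The honest function with coefficient vector `c`. -/
noncomputable def fn [Fintype ι] (c : ι → A) : F := ∑ i, algebraMap K F (c i : K) * H.e i

theorem fn_mem_chart [Fintype ι] (c : ι → A) : H.fn c ∈ S.chart Z :=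
  sum_mem fun i _ => mul_mem (S.algebraMap_mem_chart Z (c i).2) (H.he i)

theorem fn_mem_ring [Fintype ι] (C : DiscCoord S Z) (c : ι → A) : H.fn c ∈ C.ring :=
  C.chart_le_ring (H.fn_mem_chart c)

theorem e_mem_ring (C : DiscCoord S Z) (i : ι) : H.e i ∈ C.ring := C.chart_le_ring (H.he i)

section Series

variable [Fintype ι] (hF : RiemannPkg K F)

/-- The Taylor series of the honest function at a disc is the `A`-combination of the series of
the basis. -/
theorem seriesA_fn (C : DiscCoord S Z) (c : ι → A) :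
    C.seriesA hF (H.fn_mem_ring C c)
      = ∑ i, PowerSeries.C (c i) * C.seriesA hF (H.e_mem_ring C i) :=
  C.seriesA_sum hF Finset.univ c H.e (H.e_mem_ring C) (H.fn_mem_ring C c)

include hF in
/-- Coefficients of the honest function: linear in `c`. -/
theorem coeff_fn (C : DiscCoord S Z) (c : ι → A) (n : ℕ) :
    C.coeff (H.fn c) n = ∑ i, (c i : K) * C.coeff (H.e i) n := by
  have h := congrArg (fun f => ((PowerSeries.coeff n f : A) : K)) (H.seriesA_fn hF C c)
  simp only [C.coeff_seriesA] at h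
  rw [h, map_sum]
  push_cast
  refine Finset.sum_congr rfl fun i _ => ?_
  rw [PowerSeries.coeff_C_mul]
  push_cast
  rw [C.coeff_seriesA]

variable {𝒪 : Type*} [CommRing 𝒪] [Algebra W 𝒪] (ιO : A →+* 𝒪)
  (hcomp : ∀ w : W, ιO (j w) = algebraMap W 𝒪 w)

include hcomp in
/-- The abstract `tay` of (UC4) at `ιO ∘ c` is the Taylor series of the honest function. -/
theorem tay_eq_map_seriesA (C : DiscCoord S Z) (τ : ι → PowerSeries W)
    (hτ : ∀ i n, ((j (PowerSeries.coeff n (τ i)) : A) : K) = C.coeff (H.e i) n) (c : ι → A) :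
    tay 𝒪 τ (fun i => ιO (c i)) = (C.seriesA hF (H.fn_mem_ring C c)).map ιO := by
  rw [H.seriesA_fn hF C c, map_sum]
  unfold tay
  refine Finset.sum_congr rfl fun i _ => ?_
  rw [map_mul, PowerSeries.map_C]
  congr 1
  ext n
  rw [PowerSeries.coeff_map, PowerSeries.coeff_map, ← hcomp]
  congr 1
  apply Subtype.ext
  rw [hτ i n, C.coeff_seriesA]

end Series

section Complete

variable [Fintype ι] (hF : RiemannPkg K F)
  {𝒪 : Type*} [CommRing 𝒪] [Algebra W 𝒪] (J : Ideal 𝒪) [IsAdicComplete J 𝒪] (ιO : A →+* 𝒪)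

/-- The point of (UC4) attached to honest input points. -/
noncomputable def pt (PX PY : D → Place K F) (PZ : Sg → Place K F)
    (hPX : ∀ d, PX d ∈ (H.CD d).disc) (hPY : ∀ d, PY d ∈ (H.CD d).disc)
    (hPZ : ∀ s, PZ s ∈ (H.CS s).disc)
    (hx : ∀ d, ιO ⟨evalAt (PX d) (H.CD d).t, (H.CD d).evalAt_t_mem hF (hPX d)⟩ ∈ J)
    (hy : ∀ d, ιO ⟨evalAt (PY d) (H.CD d).t, (H.CD d).evalAt_t_mem hF (hPY d)⟩ ∈ J)
    (hz : ∀ s, ιO ⟨evalAt (PZ s) (H.CS s).t, (H.CS s).evalAt_t_mem hF (hPZ s)⟩ ∈ J) :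
    Pt 𝒪 J D Sg where
  x d := ιO ⟨evalAt (PX d) (H.CD d).t, (H.CD d).evalAt_t_mem hF (hPX d)⟩
  y d := ιO ⟨evalAt (PY d) (H.CD d).t, (H.CD d).evalAt_t_mem hF (hPY d)⟩
  z s := ιO ⟨evalAt (PZ s) (H.CS s).t, (H.CS s).evalAt_t_mem hF (hPZ s)⟩
  hx := hx
  hy := hy
  hz := hz

variable (hcomp : ∀ w : W, ιO (j w) = algebraMap W 𝒪 w)

include hcomp in
/-- **(HC-1) The honest chord function solves the abstract conditions.** -/
theorem mulVec_condMatrix_eq_zero (c : ι → A)
    (PX PY : D → Place K F) (PZ : Sg → Place K F)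
    (hPX : ∀ d, PX d ∈ (H.CD d).disc) (hPY : ∀ d, PY d ∈ (H.CD d).disc)
    (hPZ : ∀ s, PZ s ∈ (H.CS s).disc)
    (hx : ∀ d, ιO ⟨evalAt (PX d) (H.CD d).t, (H.CD d).evalAt_t_mem hF (hPX d)⟩ ∈ J)
    (hy : ∀ d, ιO ⟨evalAt (PY d) (H.CD d).t, (H.CD d).evalAt_t_mem hF (hPY d)⟩ ∈ J)
    (hz : ∀ s, ιO ⟨evalAt (PZ s) (H.CS s).t, (H.CS s).evalAt_t_mem hF (hPZ s)⟩ ∈ J)
    (hzX : ∀ d, evalAt (PX d) (H.fn c) = 0) (hzY : ∀ d, evalAt (PY d) (H.fn c) = 0)
    (hdouble : ∀ d, PX d = PY d → H.fn c = 0 ∨ 2 ≤ (PX d).ord (H.fn c))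
    (hzZ : ∀ s, evalAt (PZ s) (H.fn c) = 0)
    (hjet : ∀ n, (H.Cν n).coeff (H.fn c) (H.lν n) = 0) :
    (condMatrix X 𝒪 J (H.pt hF J ιO PX PY PZ hPX hPY hPZ hx hy hz)).mulVec
      (fun i => ιO (c i)) = 0 := by
  funext row
  rcases row with d | d | s | n
  · rw [mulVec_condMatrix_inl,
      H.tay_eq_map_seriesA hF ιO hcomp (H.CD d) (X.τD d) (H.hτD d) c]
    exact ((H.CD d).evalM_eq_zero_and_dd_eq_zero J ιO hF (hPX d) (hPY d)
      (H.fn_mem_ring (H.CD d) c) (hzX d) (hzY d) (hdouble d) (hx d) (hy d)).1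
  · rw [mulVec_condMatrix_inr_inl,
      H.tay_eq_map_seriesA hF ιO hcomp (H.CD d) (X.τD d) (H.hτD d) c]
    exact ((H.CD d).evalM_eq_zero_and_dd_eq_zero J ιO hF (hPX d) (hPY d)
      (H.fn_mem_ring (H.CD d) c) (hzX d) (hzY d) (hdouble d) (hx d) (hy d)).2
  · rw [mulVec_condMatrix_inr_inr_inl,
      H.tay_eq_map_seriesA hF ιO hcomp (H.CS s) (X.τS s) (H.hτS s) c]
    show evalM J (ιO ⟨evalAt (PZ s) (H.CS s).t, _⟩) (hz s) _ = 0
    rw [(H.CS s).evalM_seriesA J ιO hF (hPZ s) (H.fn_mem_ring (H.CS s) c) (hz s)]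
    have : (⟨evalAt (PZ s) (H.fn c), (H.CS s).ring_evalAt_mem hF (hPZ s)
        (H.fn_mem_ring (H.CS s) c)⟩ : A) = 0 := Subtype.ext (hzZ s)
    rw [this, map_zero]
  · rw [mulVec_condMatrix_inr_inr_inr]
    simp only [Matrix.mulVec, dotProduct, Matrix.map_apply, Pi.zero_apply]
    have h1 : ∀ i, algebraMap W 𝒪 (X.ρ0 n i) * ιO (c i) = ιO (j (X.ρ0 n i) * c i) := by
      intro i
      rw [map_mul, hcomp]
    rw [Finset.sum_congr rfl fun i _ => h1 i, ← map_sum]
    have h2 : (∑ i, j (X.ρ0 n i) * c i : A) = 0 := by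
      apply Subtype.ext
      have := H.coeff_fn hF (H.Cν n) c (H.lν n)
      rw [hjet n] at this
      push_cast
      rw [this]
      refine Finset.sum_congr rfl fun i _ => ?_
      rw [H.hρ0 n i, mul_comm]
    rw [h2, map_zero]

include hcomp in
/-- **(HC-2) The output coordinate is the universal series at the input coordinates.** -/
theorem coord_eq_Wser [Fintype D] [Fintype Sg] [Fintype ν] [DecidableEq D] [DecidableEq Sg]
    [DecidableEq ν] (c : ι → A)
    (PX PY : D → Place K F) (PZ : Sg → Place K F)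
    (hPX : ∀ d, PX d ∈ (H.CD d).disc) (hPY : ∀ d, PY d ∈ (H.CD d).disc)
    (hPZ : ∀ s, PZ s ∈ (H.CS s).disc)
    (hx : ∀ d, ιO ⟨evalAt (PX d) (H.CD d).t, (H.CD d).evalAt_t_mem hF (hPX d)⟩ ∈ J)
    (hy : ∀ d, ιO ⟨evalAt (PY d) (H.CD d).t, (H.CD d).evalAt_t_mem hF (hPY d)⟩ ∈ J)
    (hz : ∀ s, ιO ⟨evalAt (PZ s) (H.CS s).t, (H.CS s).evalAt_t_mem hF (hPZ s)⟩ ∈ J)
    (hzX : ∀ d, evalAt (PX d) (H.fn c) = 0) (hzY : ∀ d, evalAt (PY d) (H.fn c) = 0)
    (hdouble : ∀ d, PX d = PY d → H.fn c = 0 ∨ 2 ≤ (PX d).ord (H.fn c))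
    (hzZ : ∀ s, evalAt (PZ s) (H.fn c) = 0)
    (hjet : ∀ n, (H.Cν n).coeff (H.fn c) (H.lν n) = 0)
    (s : ChordSol X 𝒪 J (H.pt hF J ιO PX PY PZ hPX hPY hPZ hx hy hz))
    (hunit : IsUnit (c s.i0)) (o : O) {PW : Place K F} (hPW : PW ∈ (H.CO o).disc)
    (hw : ιO ⟨evalAt PW (H.CO o).t, (H.CO o).evalAt_t_mem hF hPW⟩ ∈ J)
    (hzW : evalAt PW (H.fn c) = 0) :
    ιO ⟨evalAt PW (H.CO o).t, (H.CO o).evalAt_t_mem hF hPW⟩ = s.Wser o := by
  have hker := H.mulVec_condMatrix_eq_zero hF J ιO hcomp c PX PY PZ hPX hPY hPZ hx hy hz hzX hzY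
    hdouble hzZ hjet
  have hu : IsUnit (ιO (c s.i0)) := hunit.map ιO
  refine s.root_eq (fun i => ιO (c i)) hker (fun b hb => (hu.mul_right_eq_zero).1 hb) o hw ?_
  rw [H.tay_eq_map_seriesA hF ιO hcomp (H.CO o) (X.τO o) (H.hτO o) c,
    (H.CO o).evalM_seriesA J ιO hF hPW (H.fn_mem_ring (H.CO o) c) hw]
  have : (⟨evalAt PW (H.fn c), (H.CO o).ring_evalAt_mem hF hPW
      (H.fn_mem_ring (H.CO o) c)⟩ : A) = 0 := Subtype.ext hzW
  rw [this, map_zero]

end Complete

end HonestData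

end Fermat.Agent.FF2.HChord
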