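import Mathlib
import Fermat.Agent.FF2.Disc.Dvd
import Fermat.Agent.FF2.HChord.Kernel

/-!
# MOONSHOT S19, node (HC), finite-level interface: exact divisibilities for the honest chord

`H : HonestData S j X Z`, the valuation ring `A` a `W`-algebra through `j`.  For a coefficient
vector `c : ι → A` with honest function `Fh = ∑ cᵢ eᵢ`:

* `tay_eq_seriesA` : helper2's `tay A τ c` IS the Taylor series (coefficients in `A`) of `Fh`.
* `mul_dvd_tay_τD` (h1), `dvd_tay_τS` (h2), `ρ0_mulVec_eq_zero` (h3), `dvd_tay_τO` (h4): the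
  hypotheses of helper2's finite-level `chord_congruence`, over `B := A` — exact divisibilities in
  `A⟦X⟧`, no completion.
-/

set_option autoImplicit false

namespace Fermat.Agent.FF2.HChord

open AlgebraicCurve Fermat.Agent.Red Fermat.Agent.X0 Fermat.Agent.FF2.Disc
  Fermat.Agent.FF2.Weier Fermat.Agent.FF2.Chord

variable {K F k Ft : Type*} [Field K] [Field F] [Algebra K F] [Field k] [Field Ft]
  [Algebra k Ft] {A : ValuationSubring K} {π : A →+* k}

variable {W : Type*} [CommRing W] {ι D Sg ν O : Type*}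

namespace HonestData

variable {S : RedSetup (F := F) (Ft := Ft) A π} {j : W →+* A} {X : ChordData W ι D Sg ν O}
  {Z : Set (Place K F)} (H : HonestData S j X Z) [Fintype ι] (hF : RiemannPkg K F)
  [Algebra W A] (hj : ∀ w : W, algebraMap W A w = j w)

include hj in
/-- helper2's `tay A τ c` is the Taylor series of the honest function. -/
theorem tay_eq_seriesA (C : DiscCoord S Z) (τ : ι → PowerSeries W)
    (hτ : ∀ i n, ((j (PowerSeries.coeff n (τ i)) : A) : K) = C.coeff (H.e i) n) (c : ι → A) :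
    tay A τ c = C.seriesA hF (H.fn_mem_ring C c) := by
  rw [H.seriesA_fn hF C c]
  unfold tay
  refine Finset.sum_congr rfl fun i _ => ?_
  congr 1
  ext n
  rw [PowerSeries.coeff_map, hj, hτ i n, C.coeff_seriesA]

include hj in
/-- (h1) double conditions. -/
theorem mul_dvd_tay_τD (c : ι → A) (d : D) {P Q : Place K F} (hP : P ∈ (H.CD d).disc)
    (hQ : Q ∈ (H.CD d).disc) (hzP : evalAt P (H.fn c) = 0) (hzQ : evalAt Q (H.fn c) = 0)
    (hdouble : P = Q → H.fn c = 0 ∨ 2 ≤ P.ord (H.fn c)) :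
    (PowerSeries.X - PowerSeries.C ⟨evalAt P (H.CD d).t, (H.CD d).evalAt_t_mem hF hP⟩
        : PowerSeries A)
        * (PowerSeries.X - PowerSeries.C ⟨evalAt Q (H.CD d).t, (H.CD d).evalAt_t_mem hF hQ⟩)
      ∣ tay A (X.τD d) c := by
  rw [H.tay_eq_seriesA hF hj (H.CD d) (X.τD d) (H.hτD d) c]
  exact (H.CD d).mul_dvd_seriesA hF hP hQ (H.fn_mem_ring (H.CD d) c) hzP hzQ hdouble

include hj in
/-- (h2) single conditions. -/
theorem dvd_tay_τS (c : ι → A) (s : Sg) {P : Place K F} (hP : P ∈ (H.CS s).disc)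
    (hz : evalAt P (H.fn c) = 0) :
    (PowerSeries.X - PowerSeries.C ⟨evalAt P (H.CS s).t, (H.CS s).evalAt_t_mem hF hP⟩
        : PowerSeries A) ∣ tay A (X.τS s) c := by
  rw [H.tay_eq_seriesA hF hj (H.CS s) (X.τS s) (H.hτS s) c]
  exact (H.CS s).X_sub_C_dvd_seriesA hF hP (H.fn_mem_ring (H.CS s) c) hz

include hj in
/-- (h4) the output points. -/
theorem dvd_tay_τO (c : ι → A) (o : O) {P : Place K F} (hP : P ∈ (H.CO o).disc)
    (hz : evalAt P (H.fn c) = 0) :
    (PowerSeries.X - PowerSeries.C ⟨evalAt P (H.CO o).t, (H.CO o).evalAt_t_mem hF hP⟩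
        : PowerSeries A) ∣ tay A (X.τO o) c := by
  rw [H.tay_eq_seriesA hF hj (H.CO o) (X.τO o) (H.hτO o) c]
  exact (H.CO o).X_sub_C_dvd_seriesA hF hP (H.fn_mem_ring (H.CO o) c) hz

include hF hj in
/-- (h3) the fixed jets. -/
theorem ρ0_mulVec_eq_zero (c : ι → A) (hjet : ∀ n, (H.Cν n).coeff (H.fn c) (H.lν n) = 0) :
    (X.ρ0.map (algebraMap W A)).mulVec c = 0 := by
  funext n
  simp only [Matrix.mulVec, dotProduct, Matrix.map_apply, Pi.zero_apply]
  apply Subtype.ext
  have := H.coeff_fn hF (H.Cν n) c (H.lν n)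
  rw [hjet n] at this
  push_cast
  rw [this]
  refine Finset.sum_congr rfl fun i _ => ?_
  rw [hj, H.hρ0 n i, mul_comm]

omit [Algebra W A] in
include hF in
/-- The jets of the honest function vanish as soon as it vanishes to the prescribed orders at the
centres: `lν n < ord` at the centre of `Cν n`. -/
theorem coeff_eq_zero_of_lt_ord (c : ι → A) (n : ν) (hne : H.fn c ≠ 0)
    (hord : (H.lν n : ℤ) < (H.Cν n).P₀.ord (H.fn c)) :
    (H.Cν n).coeff (H.fn c) (H.lν n) = 0 := by
  have hmem : H.fn c ∈ (H.Cν n).P₀.toValuationSubring :=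
    (H.Cν n).ring_mem_valuationSubring (H.Cν n).P₀_mem_disc (H.fn_mem_ring (H.Cν n) c)
  exact (le_ord_iff_taylorCoeff (hF.deg_one _) (H.Cν n).hord hmem hne (H.lν n + 1)).1
    (by push_cast; omega) (H.lν n) (Nat.lt_succ_self _)

end HonestData

end Fermat.Agent.FF2.HChord
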