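import Mathlib
import Fermat.Agent.FF2.HChord.Kernel
import Fermat.Agent.Red.RRReduction

/-!
# MOONSHOT S19, node (SF-4): abstract `RedSetup` inputs of the honest chord

* `exists_discCoords` : disc coordinates over ONE `Z` at any family of prescribed centres.
* `mem_chart_of_mem_riemannRochSpace` : `L(E) ∩ O ⊆ B_Z` when `E` is supported in `Z`.
* `exists_bound_span_resF_eq` : for `deg E ≥ c`, the reductions of a reduced basis of `L(E)`
  span `L(r_* E)`; `resBasis` packages them as a `Basis`.
* `exists_unit_coeff` : an element of `L(E) ∩ O` with nonzero reduction is an `A`-combination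
  of the reduced basis with some coefficient a unit (the *honest section*).
-/

set_option autoImplicit false

namespace Fermat.Agent.FF2.HChord

open AlgebraicCurve Fermat.Agent.Red Fermat.Agent.X0 Fermat.Agent.FF2.Disc Module

variable {K F k Ft : Type*} [Field K] [Field F] [Algebra K F] [Field k] [Field Ft]
  [Algebra k Ft] {A : ValuationSubring K} {π : A →+* k}
  (S : RedSetup (F := F) (Ft := Ft) A π)

/-- (SF-4a) Disc coordinates over one `Z` with prescribed centres. -/
theorem exists_discCoords [Infinite k] (hπ : Function.Surjective π)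
    (hF : RiemannPkg K F) (hFt : RiemannPkg k Ft) (hg : genusFF k Ft = genusFF K F)
    (Z : Finset (Place K F)) (hZ : Z.Nonempty) {I : Type*} (P : I → Place K F)
    (hP : ∀ i, S.r (P i) ∉ S.r '' (Z : Set (Place K F))) :
    ∃ C : I → DiscCoord S (Z : Set (Place K F)), ∀ i, (C i).P₀ = P i := by
  choose C hC using fun i => DiscCoord.exists_of_genus_eq (S := S) hπ hF hFt hg (P i) Z hZ (hP i)
  exact ⟨C, hC⟩

/-- (SF-4a') Disc coordinates over one `Z` with prescribed residue centres, through any section
`lift` of the reduction of places. -/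
theorem exists_discCoords_of_lift [Infinite k] (hπ : Function.Surjective π)
    (hF : RiemannPkg K F) (hFt : RiemannPkg k Ft) (hg : genusFF k Ft = genusFF K F)
    (Z : Finset (Place K F)) (hZ : Z.Nonempty) (lift : Place k Ft → Place K F)
    (hlift : ∀ Q, S.r (lift Q) = Q) {I : Type*} (Q : I → Place k Ft)
    (hQ : ∀ i, Q i ∉ S.r '' (Z : Set (Place K F))) :
    ∃ C : I → DiscCoord S (Z : Set (Place K F)),
      ∀ i, (C i).P₀ = lift (Q i) ∧ S.r (C i).P₀ = Q i := by
  obtain ⟨C, hC⟩ := exists_discCoords S hπ hF hFt hg Z hZ (fun i => lift (Q i))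
    (fun i => by rw [hlift]; exact hQ i)
  exact ⟨C, fun i => ⟨hC i, by rw [hC i, hlift]⟩⟩

variable {S}

/-- `L(E) ∩ O ⊆ B_Z` when `E` is supported in `Z`. -/
theorem mem_chart_of_mem_riemannRochSpace {Z : Set (Place K F)} {E : Divisor K F}
    (hE : ∀ P, P ∉ Z → E P = 0) {h : F} (hh : h ∈ riemannRochSpace E) (hO : h ∈ S.O) :
    h ∈ S.chart Z :=
  S.mem_chart.2 ⟨hO, mem_regularRing_iff_mem_regularOutside.2
    (riemannRochSpace_le_regularOutside_zero hE hh)⟩

section Span

variable (hπ : Function.Surjective π)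

include hπ in
/-- The residue space of the span of a reduced family is the span of the residues. -/
theorem resSpace_span_eq {n : ℕ} (z : Fin n → F) (hzO : ∀ i, z i ∈ S.O)
    (hzind : LinearIndependent k fun i => S.resF (z i)) :
    S.resSpace hπ (Submodule.span K (Set.range z)) =
      Submodule.span k (Set.range fun i => S.resF (z i)) := by
  apply le_antisymm
  · rintro _ ⟨y, hy, hyO, rfl⟩
    obtain ⟨a, ha, rfl⟩ := S.exists_coeff_of_mem z hzO hzind hy hyO
    rw [(S.resF_sum_smul z hzO a ha).2]
    exact Submodule.sum_mem _ fun i _ =>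
      Submodule.smul_mem _ _ (Submodule.subset_span ⟨i, rfl⟩)
  · rw [Submodule.span_le]
    rintro _ ⟨i, rfl⟩
    exact ⟨z i, Submodule.subset_span ⟨i, rfl⟩, hzO i, rfl⟩

include hπ in
/-- (SF-4b) For `deg E` large, the reductions of a reduced basis of `L(E)` span `L(r_* E)`. -/
theorem exists_bound_span_resF_eq (hF : RiemannPkg K F) (hFt : RiemannPkg k Ft)
    (hg : genusFF k Ft = genusFF K F) :
    ∃ c : ℤ, ∀ E : Divisor K F, c ≤ Divisor.degree E → ∀ {n : ℕ} (z : Fin n → F),
      (∀ i, z i ∈ S.O) → (LinearIndependent k fun i => S.resF (z i)) →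
      Submodule.span K (Set.range z) = riemannRochSpace E →
      Submodule.span k (Set.range fun i => S.resF (z i)) =
        riemannRochSpace (Finsupp.mapDomain S.r E) := by
  obtain ⟨c, hc⟩ := S.exists_bound_resSpace_eq hπ hF hFt hg
  refine ⟨c, fun E hE n z hzO hzind hspan => ?_⟩
  rw [← resSpace_span_eq hπ z hzO hzind, hspan]
  exact hc E hE

/-- The reductions of a reduced basis, as a basis of `L(r_* E)`. -/
noncomputable def resBasis {n : ℕ} (z : Fin n → F) {E' : Divisor k Ft}
    (hzind : LinearIndependent k fun i => S.resF (z i))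
    (hspan : Submodule.span k (Set.range fun i => S.resF (z i)) = riemannRochSpace E') :
    Basis (Fin n) k (riemannRochSpace E') :=
  Basis.mk (v := fun i => (⟨S.resF (z i), hspan ▸ Submodule.subset_span ⟨i, rfl⟩⟩ :
      riemannRochSpace E'))
    (LinearIndependent.of_comp (riemannRochSpace E').subtype hzind)
    (by
      rintro ⟨y, hy⟩ -
      have hy' := hy
      rw [← hspan] at hy'
      obtain ⟨c, hc⟩ := (Submodule.mem_span_range_iff_exists_fun k).1 hy'
      have : (⟨y, hy⟩ : riemannRochSpace E') = ∑ i, c i •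
          (⟨S.resF (z i), hspan ▸ Submodule.subset_span ⟨i, rfl⟩⟩ : riemannRochSpace E') := by
        apply Subtype.ext
        rw [Submodule.coe_sum]
        exact hc.symm
      rw [this]
      exact Submodule.sum_mem _ fun i _ =>
        Submodule.smul_mem _ _ (Submodule.subset_span ⟨i, rfl⟩))

@[simp] theorem coe_resBasis {n : ℕ} (z : Fin n → F) {E' : Divisor k Ft}
    (hzind : LinearIndependent k fun i => S.resF (z i))
    (hspan : Submodule.span k (Set.range fun i => S.resF (z i)) = riemannRochSpace E') (i : Fin n) :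
    ((resBasis z hzind hspan i : riemannRochSpace E') : Ft) = S.resF (z i) := by
  rw [resBasis, Basis.mk_apply]

include hπ in
/-- (SF-4c) **The honest section has a unit coordinate.** -/
theorem exists_unit_coeff {n : ℕ} (z : Fin n → F) (hzO : ∀ i, z i ∈ S.O)
    (hzind : LinearIndependent k fun i => S.resF (z i)) {s : F}
    (hs : s ∈ Submodule.span K (Set.range z)) (hsO : s ∈ S.O) (hres : S.resF s ≠ 0) :
    ∃ c : Fin n → A, s = ∑ i, algebraMap K F (c i : K) * z i ∧
      S.resF s = ∑ i, π (c i) • S.resF (z i) ∧ ∃ i, IsUnit (c i) := by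
  obtain ⟨a, ha, rfl⟩ := S.exists_coeff_of_mem z hzO hzind hs hsO
  have hr := (S.resF_sum_smul z hzO a ha).2
  refine ⟨fun i => ⟨a i, ha i⟩, Finset.sum_congr rfl fun i _ => Algebra.smul_def _ _, hr, ?_⟩
  by_contra hcon
  push Not at hcon
  apply hres
  rw [hr]
  refine Finset.sum_eq_zero fun i _ => ?_
  have hker : (⟨a i, ha i⟩ : A) ∈ RingHom.ker π := by
    have hmax : (RingHom.ker π).IsMaximal := RingHom.ker_isMaximal_of_surjective π hπ
    rw [IsLocalRing.eq_maximalIdeal hmax]
    exact (IsLocalRing.mem_maximalIdeal _).2 (hcon i)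
  rw [(RingHom.mem_ker).1 hker, zero_smul]

end Span

end Fermat.Agent.FF2.HChord
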