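import Mathlib
import Fermat.Agent.FF2.HChord.Dvd
import Fermat.Agent.FF2.ChordFin.Congr

/-!
# MOONSHOT S19, node (HC): THE HONEST CHORD CONGRUENCE (one chord step, finite level)

`H : HonestData S j X Z` (geometric realisation of helper2's abstract chord data `X` over the base
ring `W`, the valuation ring `A` being a `W`-algebra through `j`).  Under the special-fibre
hypotheses of helper2's `chord_congruence`, for every `N` there are polynomials
`Q o ∈ W[X_d, Y_d, Z_s]`, depending only on `X` and `N`, such that for EVERY ideal `J` of `A`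
containing `𝔪_W`, EVERY honest function `Fh = ∑ cᵢ eᵢ` (`c : ι → A` with a unit coordinate)
vanishing on input points `PX d + PY d` (double discs), `PZ s` (single discs), with vanishing
fixed jets, and vanishing at points `PW o` of the output discs, all coordinates lying in `J`:

`t'_o(PW o) ≡ Q o (t(PX), t(PY), t(PZ))  mod J ^ (N + 1)`.
-/

set_option autoImplicit false

namespace Fermat.Agent.FF2.HChord

open AlgebraicCurve Fermat.Agent.Red Fermat.Agent.X0 Fermat.Agent.FF2.Disc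
  Fermat.Agent.FF2.Weier Fermat.Agent.FF2.Chord Fermat.Agent.FF2.ChordFin IsLocalRing

variable {K F k Ft : Type*} [Field K] [Field F] [Algebra K F] [Field k] [Field Ft]
  [Algebra k Ft] {A : ValuationSubring K} {π : A →+* k}

variable {W : Type*} [CommRing W] [IsLocalRing W] {ι D Sg ν O : Type*} [Fintype ι]
  [Fintype D] [Fintype Sg] [Fintype ν] [DecidableEq D] [DecidableEq Sg] [DecidableEq ν]

namespace HonestData

variable {S : RedSetup (F := F) (Ft := Ft) A π} {j : W →+* A} {X : ChordData W ι D Sg ν O}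
  {Z : Set (Place K F)} (H : HonestData S j X Z) (hF : RiemannPkg K F)
  [Algebra W A] (hj : ∀ w : W, algebraMap W A w = j w)

include hj in
/-- **THE HONEST CHORD CONGRUENCE.** -/
theorem chord_congruence
    (hcard : Fintype.card ι = Fintype.card (D ⊕ D ⊕ Sg ⊕ ν) + 1)
    (H1 : Function.Surjective ((cond0 X).map (residue W)).mulVecLin)
    (f0 : ι → W) (hf0u : ∃ i, IsUnit (f0 i))
    (hf0 : ∀ c, (cond0 X).mulVec f0 c ∈ maximalIdeal W)
    (hO0 : ∀ o, ∑ i, f0 i * PowerSeries.coeff 0 (X.τO o i) ∈ maximalIdeal W)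
    (hO1 : ∀ o, IsUnit (∑ i, f0 i * PowerSeries.coeff 1 (X.τO o i))) (N : ℕ) :
    ∃ Q : O → MvPolynomial (D ⊕ D ⊕ Sg) W,
      ∀ (J : Ideal A) (_hWJ : ∀ w ∈ maximalIdeal W, algebraMap W A w ∈ J)
        (c : ι → A) (_hunit : ∃ i, IsUnit (c i))
        (PX PY : D → Place K F) (PZ : Sg → Place K F) (PW : O → Place K F)
        (hPX : ∀ d, PX d ∈ (H.CD d).disc) (hPY : ∀ d, PY d ∈ (H.CD d).disc)
        (hPZ : ∀ s, PZ s ∈ (H.CS s).disc) (hPW : ∀ o, PW o ∈ (H.CO o).disc)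
        (_hxJ : ∀ d, (⟨evalAt (PX d) (H.CD d).t, (H.CD d).evalAt_t_mem hF (hPX d)⟩ : A) ∈ J)
        (_hyJ : ∀ d, (⟨evalAt (PY d) (H.CD d).t, (H.CD d).evalAt_t_mem hF (hPY d)⟩ : A) ∈ J)
        (_hzJ : ∀ s, (⟨evalAt (PZ s) (H.CS s).t, (H.CS s).evalAt_t_mem hF (hPZ s)⟩ : A) ∈ J)
        (_hwJ : ∀ o, (⟨evalAt (PW o) (H.CO o).t, (H.CO o).evalAt_t_mem hF (hPW o)⟩ : A) ∈ J)
        (_hzX : ∀ d, evalAt (PX d) (H.fn c) = 0) (_hzY : ∀ d, evalAt (PY d) (H.fn c) = 0)
        (_hdouble : ∀ d, PX d = PY d → H.fn c = 0 ∨ 2 ≤ (PX d).ord (H.fn c))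
        (_hzZ : ∀ s, evalAt (PZ s) (H.fn c) = 0) (_hzW : ∀ o, evalAt (PW o) (H.fn c) = 0)
        (_hjet : ∀ n, (H.Cν n).coeff (H.fn c) (H.lν n) = 0) (o : O),
        (⟨evalAt (PW o) (H.CO o).t, (H.CO o).evalAt_t_mem hF (hPW o)⟩ : A)
          - MvPolynomial.aeval
              (Sum.elim (fun d => (⟨evalAt (PX d) (H.CD d).t,
                  (H.CD d).evalAt_t_mem hF (hPX d)⟩ : A))
                (Sum.elim (fun d => (⟨evalAt (PY d) (H.CD d).t,
                    (H.CD d).evalAt_t_mem hF (hPY d)⟩ : A))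
                  (fun s => (⟨evalAt (PZ s) (H.CS s).t,
                    (H.CS s).evalAt_t_mem hF (hPZ s)⟩ : A)))) (Q o)
          ∈ J ^ (N + 1) := by
  obtain ⟨Q, hQ⟩ := ChordFin.chord_congruence X hcard H1 f0 hf0u hf0 hO0 hO1 N
  refine ⟨Q, ?_⟩
  intro J hWJ c hunit PX PY PZ PW hPX hPY hPZ hPW hxJ hyJ hzJ hwJ hzX hzY hdouble hzZ hzW hjet o
  exact hQ (B := A) J hWJ
    { x := fun d => ⟨evalAt (PX d) (H.CD d).t, (H.CD d).evalAt_t_mem hF (hPX d)⟩
      y := fun d => ⟨evalAt (PY d) (H.CD d).t, (H.CD d).evalAt_t_mem hF (hPY d)⟩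
      z := fun s => ⟨evalAt (PZ s) (H.CS s).t, (H.CS s).evalAt_t_mem hF (hPZ s)⟩
      hx := hxJ
      hy := hyJ
      hz := hzJ } c hunit
    (fun o => ⟨evalAt (PW o) (H.CO o).t, (H.CO o).evalAt_t_mem hF (hPW o)⟩) hwJ
    (fun d => H.mul_dvd_tay_τD hF hj c d (hPX d) (hPY d) (hzX d) (hzY d) (hdouble d))
    (fun s => H.dvd_tay_τS hF hj c s (hPZ s) (hzZ s))
    (H.ρ0_mulVec_eq_zero hF hj c hjet)
    (fun o => H.dvd_tay_τO hF hj c o (hPW o) (hzW o)) o

end HonestData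

end Fermat.Agent.FF2.HChord
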